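import Mathlib

/-!
# An elementary descent: Euler's concordant forms `a² + b²`, `a² + 16 b²`

The only integers with `a² + b²` and `a² + 16 b²` both squares have `a * b = 0`.
(Equivalently `y² = x (x + 1) (x + 16)`, an elliptic curve of conductor 15, has rank 0.)
-/

set_option autoImplicit false

namespace Fermat.Agent.Mazur.Fifteen

/-- A pair of concordant squares. -/
def Concordant (a b : ℤ) : Prop :=
  (∃ c, a ^ 2 + b ^ 2 = c ^ 2) ∧ ∃ d, a ^ 2 + 16 * b ^ 2 = d ^ 2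

lemma even_sq_mod (a : ℤ) (h : a % 2 = 0) : ∃ t, a = 2 * t := ⟨a / 2, by omega⟩

lemma sq_mod_eight_of_odd {y : ℤ} (hy : y % 2 = 1) : y ^ 2 % 8 = 1 := by
  have h : y % 8 = 1 ∨ y % 8 = 3 ∨ y % 8 = 5 ∨ y % 8 = 7 := by omega
  rcases h with h | h | h | h <;> rw [pow_two, Int.mul_emod, h] <;> rfl

/-- `p' q = m n` with `m ≠ 0` refines into four numbers. -/
lemma four_number {p q m n : ℤ} (h : p * q = m * n) (hm : m ≠ 0) :
    ∃ x y z w : ℤ, p = x * z ∧ q = y * w ∧ m = x * y ∧ n = z * w ∧ IsCoprime y z := by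
  have hx : (Int.gcd p m : ℤ) ≠ 0 := by
    simp [Int.gcd_eq_zero_iff, hm]
  obtain ⟨z, hz⟩ := Int.gcd_dvd_left p m
  obtain ⟨y, hy⟩ := Int.gcd_dvd_right p m
  generalize hg : (Int.gcd p m : ℤ) = x at hx hz hy
  have hco : IsCoprime y z := by
    have hb : x = Int.gcdA p m * p + Int.gcdB p m * m := by
      rw [← hg, Int.gcd_eq_gcd_ab]; ring
    refine ⟨Int.gcdB p m, Int.gcdA p m, mul_left_cancel₀ hx ?_⟩
    linear_combination -hb - Int.gcdA p m * hz - Int.gcdB p m * hy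
  have h' : z * q = y * n := by
    apply mul_left_cancel₀ hx
    rw [hz, hy] at h
    linear_combination h
  have hyq : y ∣ q := hco.dvd_of_dvd_mul_left ⟨n, h'⟩
  obtain ⟨w, rfl⟩ := hyq
  have hy0 : y ≠ 0 := by rintro rfl; simp_all
  exact ⟨x, y, z, w, hz, rfl, hy, mul_left_cancel₀ hy0 (by linear_combination -h'), hco⟩

/-- `x² A = w² B` with `x, w` coprime: `A = k w²`, `B = k x²`. -/
lemma exists_factor {x w A B : ℤ} (h : x ^ 2 * A = w ^ 2 * B) (hco : IsCoprime x w) (hw : w ≠ 0) :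
    ∃ k, A = k * w ^ 2 ∧ B = k * x ^ 2 := by
  obtain ⟨k, rfl⟩ : w ^ 2 ∣ A := (hco.pow (m := 2) (n := 2)).symm.dvd_of_dvd_mul_left ⟨B, h⟩
  refine ⟨k, by ring, ?_⟩
  exact mul_left_cancel₀ (pow_ne_zero 2 hw) (by linear_combination -h)

lemma dvd_fifteen {k y z : ℤ} (hy : k ∣ 15 * y ^ 2) (hz : k ∣ 15 * z ^ 2) (hco : IsCoprime y z) :
    k ∣ 15 := by
  obtain ⟨u, v, huv⟩ := hco.pow (m := 2) (n := 2)
  have : k ∣ u * (15 * y ^ 2) + v * (15 * z ^ 2) :=
    (hy.mul_left u).add (hz.mul_left v)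
  have h15 : u * (15 * y ^ 2) + v * (15 * z ^ 2) = 15 := by linear_combination 15 * huv
  rwa [h15] at this

lemma eq_of_dvd_fifteen {k : ℤ} (h : k ∣ 15) (h8 : k % 8 = 1) : k = 1 ∨ k = -15 := by
  have h1 : k ≤ 15 := Int.le_of_dvd (by norm_num) h
  have h2 : -15 ≤ k := by linarith [Int.le_of_dvd (by norm_num) (neg_dvd.2 h)]
  interval_cases k <;> norm_num at *

/-- The descent step in the primitive case with `b` even. -/
lemma descent_step {m n p q ε : ℤ} (hε : ε = 1 ∨ ε = -1) (hp : p % 2 = 0) (hq : q % 2 = 1)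
    (hpq : IsCoprime p q) (hprod : p * q = 4 * (m * n)) (hdiff : m ^ 2 - n ^ 2 = ε * (p ^ 2 - q ^ 2))
    (hm : m ≠ 0) (hn : n ≠ 0) :
    ∃ a' b' : ℤ, Concordant a' b' ∧ a' * b' ≠ 0 ∧ |a' * b'| ≤ |m * n| := by
  obtain ⟨p', rfl⟩ : (4 : ℤ) ∣ p := by
    have h4 : IsCoprime (4 : ℤ) q := by
      refine ⟨(1 - q ^ 2) / 4, q, ?_⟩
      have : (4 : ℤ) ∣ 1 - q ^ 2 := by
        have h8 := sq_mod_eight_of_odd hq
        omega
      linear_combination Int.ediv_mul_cancel this
    exact h4.dvd_of_dvd_mul_right ⟨m * n, hprod⟩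
  obtain ⟨x, y, z, w, rfl, rfl, rfl, rfl, hyz⟩ :=
    four_number (p := p') (q := q) (m := m) (n := n)
      (mul_left_cancel₀ (show (4 : ℤ) ≠ 0 by norm_num) (by linear_combination hprod)) hm
  obtain ⟨hx0, hy0⟩ := mul_ne_zero_iff.1 hm
  obtain ⟨hz0, hw0⟩ := mul_ne_zero_iff.1 hn
  have hxw : IsCoprime x w :=
    ((hpq.of_mul_left_right).of_mul_left_left).of_mul_right_right
  have hyo : y % 2 = 1 := by
    rcases Int.emod_two_eq_zero_or_one y with h | h
    · rw [Int.mul_emod, h] at hq; simp at hq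
    · exact h
  have hwo : w % 2 = 1 := by
    rcases Int.emod_two_eq_zero_or_one w with h | h
    · rw [Int.mul_emod, h] at hq; simp at hq
    · exact h
  have hy8 := sq_mod_eight_of_odd hyo
  have hw8 := sq_mod_eight_of_odd hwo
  have key : x ^ 2 * (y ^ 2 - 16 * ε * z ^ 2) = w ^ 2 * (z ^ 2 - ε * y ^ 2) := by
    linear_combination hdiff
  obtain ⟨k, hA, hB⟩ := exists_factor key hxw hw0
  have hε2 : ε ^ 2 = 1 := by rcases hε with rfl | rfl <;> rfl
  have hk15 : k ∣ 15 := by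
    refine dvd_fifteen (y := y) (z := z) ⟨-w ^ 2 - 16 * ε * x ^ 2, ?_⟩
      ⟨-ε * w ^ 2 - x ^ 2, ?_⟩ hyz
    · linear_combination -hA - 16 * ε * hB - 16 * y ^ 2 * hε2
    · linear_combination -ε * hA - hB - 16 * z ^ 2 * hε2
  have hk8 : k % 8 = 1 := by
    have h1 : (k * w ^ 2) % 8 = k % 8 := by rw [Int.mul_emod, hw8]; simp
    have h2 : (y ^ 2 - 16 * ε * z ^ 2) % 8 = 1 := by
      have : 16 * ε * z ^ 2 = 8 * (2 * ε * z ^ 2) := by ring
      omega
    rw [← h1, ← hA]; exact h2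
  have hy1 : 0 < y ^ 2 := sq_pos_iff.2 hy0
  have hz1 : 0 < z ^ 2 := sq_pos_iff.2 hz0
  have hx1 : 0 < x ^ 2 := sq_pos_iff.2 hx0
  have hw1 : 0 < w ^ 2 := sq_pos_iff.2 hw0
  have habs : |x * y * (z * w)| = |x * w| * |y * z| := by rw [← abs_mul]; congr 1; ring
  have hone : ∀ {t : ℤ}, t ≠ 0 → 1 ≤ |t| := fun ht => Int.one_le_abs ht
  rcases eq_of_dvd_fifteen hk15 hk8 with rfl | rfl
  · rcases hε with rfl | rfl
    · exfalso; nlinarith
    · refine ⟨y, z, ⟨⟨x, ?_⟩, ⟨w, ?_⟩⟩, mul_ne_zero hy0 hz0, ?_⟩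
      · linear_combination hB
      · linear_combination hA
      · rw [habs]
        exact le_mul_of_one_le_left (abs_nonneg _) (hone (mul_ne_zero hx0 hw0))
  · rcases hε with rfl | rfl
    · refine ⟨w, x, ⟨⟨z, ?_⟩, ⟨y, ?_⟩⟩, mul_ne_zero hw0 hx0, ?_⟩
      · linarith
      · linarith
      · rw [habs, mul_comm w x]
        exact le_mul_of_one_le_right (abs_nonneg _) (hone (mul_ne_zero hy0 hz0))
    · exfalso; nlinarith

theorem concordant_trivial {a b : ℤ} (h : Concordant a b) : a * b = 0 := by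
  induction hN : (a * b).natAbs using Nat.strong_induction_on generalizing a b with
  | _ N ih =>
  subst hN
  by_contra hab
  obtain ⟨ha0, hb0⟩ := mul_ne_zero_iff.1 hab
  have descend : ∀ a' b' : ℤ, Concordant a' b' → a' * b' ≠ 0 → |a' * b'| < |a * b| → False := by
    intro a' b' h' h0 hlt
    refine h0 (ih _ ?_ h' rfl)
    zify; exact hlt
  obtain ⟨⟨c, hc⟩, ⟨d, hd⟩⟩ := h
  have habpos : 0 < |a * b| := abs_pos.2 hab
  by_cases hg : Int.gcd a b = 1
  swap
  · obtain ⟨a', ha'⟩ := Int.gcd_dvd_left a b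
    obtain ⟨b', hb'⟩ := Int.gcd_dvd_right a b
    have hg0 : Int.gcd a b ≠ 0 := by simp [Int.gcd_eq_zero_iff, ha0]
    generalize hgg : (Int.gcd a b : ℤ) = g at ha' hb'
    have hg2 : 2 ≤ g := by omega
    have hgc : g ∣ c := (Int.pow_dvd_pow_iff two_ne_zero).1
      ⟨a' ^ 2 + b' ^ 2, by rw [← hc, ha', hb']; ring⟩
    have hgd : g ∣ d := (Int.pow_dvd_pow_iff two_ne_zero).1
      ⟨a' ^ 2 + 16 * b' ^ 2, by rw [← hd, ha', hb']; ring⟩
    obtain ⟨c', rfl⟩ := hgc
    obtain ⟨d', rfl⟩ := hgd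
    have hgne : g ^ 2 ≠ 0 := pow_ne_zero 2 (by omega)
    have h0 : a' * b' ≠ 0 := by
      intro h0; apply hab; rw [ha', hb', show g * a' * (g * b') = g * g * (a' * b') by ring, h0,
        mul_zero]
    refine descend a' b' ⟨⟨c', mul_left_cancel₀ hgne ?_⟩, ⟨d', mul_left_cancel₀ hgne ?_⟩⟩ h0 ?_
    · rw [ha', hb'] at hc; linear_combination hc
    · rw [ha', hb'] at hd; linear_combination hd
    · rw [ha', hb', show g * a' * (g * b') = g ^ 2 * (a' * b') by ring, abs_mul (g ^ 2),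
        abs_of_nonneg (sq_nonneg g)]
      have h1 : 0 < |a' * b'| := abs_pos.2 h0
      have h4 : 4 ≤ g ^ 2 := by nlinarith only [hg2]
      nlinarith only [h1, h4]
  rcases Int.emod_two_eq_zero_or_one b with hb2 | hb2
  · -- `b` even, `a` odd
    have ha2 : a % 2 = 1 := by
      rcases Int.emod_two_eq_zero_or_one a with ha2 | ha2
      · exfalso
        have : (2 : ℤ) ∣ (Int.gcd a b : ℤ) := Int.dvd_coe_gcd (by omega) (by omega)
        rw [hg] at this; norm_num at this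
      · exact ha2
    have hg4 : Int.gcd a (4 * b) = 1 := by
      have h4 : Int.gcd a 4 = 1 := by
        rw [← Int.isCoprime_iff_gcd_eq_one]
        refine ⟨a, (1 - a ^ 2) / 4, ?_⟩
        have : (4 : ℤ) ∣ 1 - a ^ 2 := by
          have := sq_mod_eight_of_odd ha2; omega
        linear_combination Int.ediv_mul_cancel this
      rw [← Int.isCoprime_iff_gcd_eq_one] at *
      exact h4.mul_right hg
    obtain ⟨m, n, hmn, -, hco, hpar⟩ :=
      PythagoreanTriple.coprime_classification.1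
        ⟨show PythagoreanTriple a b c by
          show a * a + b * b = c * c
          linear_combination hc, hg⟩
    obtain ⟨p, q, hpq, -, hco', hpar'⟩ :=
      PythagoreanTriple.coprime_classification.1
        ⟨show PythagoreanTriple a (4 * b) d by
          show a * a + 4 * b * (4 * b) = d * d
          linear_combination hd, hg4⟩
    rcases hmn with ⟨ha, hb⟩ | ⟨ha, -⟩
    swap
    · rw [ha, Int.mul_emod, Int.mul_emod 2] at ha2; simp at ha2
    rcases hpq with ⟨ha', hb'⟩ | ⟨ha', -⟩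
    swap
    · rw [ha', Int.mul_emod, Int.mul_emod 2] at ha2; simp at ha2
    rw [← Int.isCoprime_iff_gcd_eq_one] at hco'
    have hm : m ≠ 0 := by rintro rfl; simp at hb; exact hb0 hb
    have hn : n ≠ 0 := by rintro rfl; simp at hb; exact hb0 hb
    have hprod : p * q = 4 * (m * n) := by
      rw [hb] at hb'; linarith
    obtain ⟨a', b', h', h0, hle⟩ : ∃ a' b' : ℤ, Concordant a' b' ∧ a' * b' ≠ 0 ∧
        |a' * b'| ≤ |m * n| := by
      rcases hpar' with ⟨hp, hq⟩ | ⟨hp, hq⟩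
      · exact descent_step (Or.inl rfl) hp hq hco' hprod (by rw [ha] at ha'; linarith) hm hn
      · exact descent_step (Or.inr rfl) hq hp hco'.symm (by linarith)
          (by rw [ha] at ha'; linarith) hm hn
    refine descend a' b' h' h0 ?_
    have h1 : 1 ≤ |a| := Int.one_le_abs ha0
    have h2 : 0 < |m * n| := abs_pos.2 (mul_ne_zero hm hn)
    have hb2' : |b| = 2 * |m * n| := by
      rw [hb, mul_assoc, abs_mul]; norm_num
    rw [abs_mul a b, hb2']
    nlinarith
  · -- `b` odd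
    have hb8 := sq_mod_eight_of_odd hb2
    rcases Int.emod_two_eq_zero_or_one a with ha2 | ha2
    swap
    · have ha8 := sq_mod_eight_of_odd ha2
      rcases Int.emod_two_eq_zero_or_one c with h | h
      · obtain ⟨t, rfl⟩ := even_sq_mod c h
        rw [mul_pow] at hc; omega
      · have := sq_mod_eight_of_odd h; omega
    obtain ⟨a1, rfl⟩ := even_sq_mod a ha2
    rcases Int.emod_two_eq_zero_or_one a1 with h1 | h1
    swap
    · have ha8 := sq_mod_eight_of_odd h1
      rw [mul_pow] at hc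
      rcases Int.emod_two_eq_zero_or_one c with h | h
      · obtain ⟨t, rfl⟩ := even_sq_mod c h
        rw [mul_pow] at hc; omega
      · have := sq_mod_eight_of_odd h; omega
    obtain ⟨a2, rfl⟩ := even_sq_mod a1 h1
    obtain ⟨d', rfl⟩ : (4 : ℤ) ∣ d :=
      (Int.pow_dvd_pow_iff two_ne_zero).1 ⟨a2 ^ 2 + b ^ 2, by linear_combination -hd⟩
    refine descend b a2 ⟨⟨d', by linarith⟩, ⟨c, by linarith⟩⟩
      (mul_ne_zero hb0 (by rintro rfl; simp at ha0)) ?_
    have : |2 * (2 * a2) * b| = 4 * |b * a2| := by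
      rw [show 2 * (2 * a2) * b = 4 * (b * a2) by ring, abs_mul]; norm_num
    rw [this] at habpos ⊢
    linarith

end Fermat.Agent.Mazur.Fifteen
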