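import Mathlib
import Fermat.Prelude.Def_FLTPrelim_GaloisRep

/-!
# From a reducible mod `p` representation to a Galois stable cyclic subgroup
-/

set_option autoImplicit false

namespace Fermat.Agent.Mazur.Fifteen

open WeierstrassCurve WeierstrassCurve.Affine WeierstrassCurve.Affine.Point

/-- If `#E[p] = p²` and `E[p]` is not irreducible, some point of order `p` spans a stable line. -/
theorem exists_stable_point {K : Type*} [Field K] [DecidableEq K] [Algebra ℚ K]
    (W : Affine ℚ) (p : ℕ) (hp : p.Prime)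
    (hcard : Nat.card (Submodule.torsionBy ℤ (W⁄K).Point p) = p ^ 2)
    (h : ¬ GaloisRepIsIrreducible (K := K) ℚ W p) :
    ∃ P : (W⁄K).Point, P ≠ 0 ∧ p • P = 0 ∧ ∀ σ : K ≃ₐ[ℚ] K, ∃ k : ℕ, k < p ∧ σ • P = k • P := by
  have : Fact p.Prime := ⟨hp⟩
  have hp1 := hp.one_lt
  have hfin : Finite (Submodule.torsionBy ℤ (W⁄K).Point p) :=
    Nat.finite_of_card_ne_zero (by rw [hcard]; positivity)
  have hnt : Nontrivial (Submodule.torsionBy ℤ (W⁄K).Point p) := by
    rw [← Finite.one_lt_card_iff_nontrivial, hcard]; nlinarith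
  rw [GaloisRepIsIrreducible] at h
  push Not at h
  obtain ⟨N, hN, hbot, htop⟩ := h hnt
  obtain ⟨P, hPN, hP0⟩ := (Submodule.ne_bot_iff N).1 hbot
  have hcardN : Nat.card N = p := by
    have h2 := Submodule.card_eq_card_quotient_mul_card N
    rw [hcard] at h2
    obtain ⟨i, hi, hNi⟩ := (Nat.dvd_prime_pow hp).1 (Dvd.intro _ h2.symm)
    interval_cases i
    · exfalso
      rw [pow_zero] at hNi
      have := (Nat.card_eq_one_iff_unique.1 hNi).1
      exact hP0 (congrArg Subtype.val (Subsingleton.elim (⟨P, hPN⟩ : N) 0))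
    · simpa using hNi
    · exfalso
      refine htop (Submodule.toAddSubgroup_injective ?_)
      exact AddSubgroup.eq_top_of_card_eq _ (by rw [hcard]; exact hNi)
  refine ⟨P.1, fun h0 => hP0 (Subtype.ext h0), ?_, fun σ => ?_⟩
  · have := P.2
    rw [Submodule.mem_torsionBy_iff] at this
    simp
  · have hspan : AddSubgroup.zmultiples (⟨P, hPN⟩ : N) = ⊤ := by
      refine zmultiples_eq_top_of_prime_card hcardN ?_
      intro h0
      exact hP0 (congrArg Subtype.val h0)
    obtain ⟨k, hk⟩ := AddSubgroup.mem_zmultiples_iff.1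
      (hspan ▸ AddSubgroup.mem_top (⟨σ • P, hN σ P hPN⟩ : N))
    refine ⟨(k % p).toNat, ?_, ?_⟩
    · have := Int.emod_lt_of_pos k (show (0 : ℤ) < p by exact_mod_cast hp.pos)
      omega
    · have hk' : k • P.1 = σ • P.1 := by
        have := congrArg (fun t : N => (t.1 : (W⁄K).Point)) hk
        simpa using! this
      have hpP : (p : ℤ) • P.1 = 0 := (Submodule.mem_torsionBy_iff _ _).1 P.2
      rw [← hk', ← natCast_zsmul,
        Int.toNat_of_nonneg (Int.emod_nonneg _ (by exact_mod_cast hp.ne_zero)), Int.emod_def,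
        sub_zsmul, mul_zsmul', hpP, smul_zero, _root_.neg_zero, add_zero]

end Fermat.Agent.Mazur.Fifteen
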